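import Mathlib
import Fermat.Agent.Lib.FF.RRApprox
import Fermat.Agent.MW.HtM.AffRing

/-!
# S27 / (GR-SPEC), brick (DICT-dim): divisors and ideals of the chart ring

`F/K` a function field in the sense of `IsFF1 K F x`, `aff K x` the chart ring of `x ≠ ∞`
(functions regular wherever `x` is regular).  For a divisor `D` we put

  `idealOf x D = {f ∈ aff K x | ord_P f ≥ D P for every place P of the chart}`.

No Dedekind instance and no separability hypothesis is used: everything is proved from
`Place.ord` and strong approximation.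

* `mem_idealOf`, `mem_idealOf_val`, `idealOf_mono`, `idealOf_zero`;
* `span_singleton_eq_idealOf` : a principal ideal is the ideal of the zero divisor of its
  generator (`exists_chartDiv` produces that divisor);
* `exists_exact` : an element of `idealOf x D` of exact order `D P` at a given place;
* `exists_sub_smul_mem`, `not_mem_succ` : `idealOf x (D + P)` has codimension one in
  `idealOf x D`;
* `finrank_quotient_idealOf` : `dim_K (aff K x ⧸ idealOf x D) = deg D` for an effective
  divisor supported in the chart.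
-/

set_option autoImplicit false

noncomputable section

namespace Fermat.Agent.S27P.GR.Spec.DictDim

open AlgebraicCurve WithZero Fermat.Agent.Lib.FF Fermat.Agent.MW.HtM.Aff

variable {K F : Type*} [Field K] [Field F] [Algebra K F]

/-- The ideal of the chart ring `aff K x` cut out by the divisor `D`:
functions of order at least `D P` at every place `P` of the chart. -/
def idealOf (x : F) (D : Divisor K F) : Ideal (aff K x) where
  carrier := {f | ∀ P : Place K F, 0 ≤ P.ord x → P.adicValuation (f : F) ≤ exp (-(D P))}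
  add_mem' := by
    intro f g hf hg P hP
    exact le_trans (Valuation.map_add _ _ _) (max_le (hf P hP) (hg P hP))
  zero_mem' := by
    intro P _
    change P.adicValuation (0 : F) ≤ _
    rw [map_zero]
    exact zero_le
  smul_mem' := by
    intro c f hf P hP
    have hc : P.adicValuation (c : F) ≤ 1 := P.adicValuation_le_one_of_mem (c.2 P hP)
    change P.adicValuation ((c : F) * (f : F)) ≤ _
    rw [map_mul]
    exact le_trans (mul_le_of_le_one_left' hc) (hf P hP)

theorem mem_idealOf_val {x : F} {D : Divisor K F} {f : aff K x} :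
    f ∈ idealOf x D ↔
      ∀ P : Place K F, 0 ≤ P.ord x → P.adicValuation (f : F) ≤ exp (-(D P)) := Iff.rfl

theorem mem_idealOf {x : F} {D : Divisor K F} {f : aff K x} :
    f ∈ idealOf x D ↔ (f : F) = 0 ∨ ∀ P : Place K F, 0 ≤ P.ord x → D P ≤ P.ord (f : F) := by
  rw [mem_idealOf_val]
  constructor
  · intro h
    by_cases hf : (f : F) = 0
    · exact Or.inl hf
    · right
      intro P hP
      have := ((P.adicValuation_le_exp_iff).1 (h P hP)).resolve_left hf
      omega
  · rintro (h | h) P hP
    · rw [h, map_zero]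
      exact zero_le
    · refine P.adicValuation_le_exp_iff.2 (Or.inr ?_)
      have := h P hP
      omega

theorem idealOf_mono {x : F} {D E : Divisor K F} (hDE : ∀ P : Place K F, D P ≤ E P) :
    idealOf x E ≤ idealOf x D := by
  intro f hf P hP
  refine le_trans (hf P hP) ?_
  rw [exp_le_exp]
  have := hDE P
  omega

theorem idealOf_zero (x : F) : idealOf x (0 : Divisor K F) = ⊤ := by
  rw [Ideal.eq_top_iff_one]
  intro P _
  change P.adicValuation (1 : F) ≤ _
  rw [map_one, Finsupp.zero_apply, neg_zero, exp_zero]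

/-- A principal ideal of the chart ring is the ideal of the zero divisor of its generator. -/
theorem span_singleton_eq_idealOf {x : F} {u : aff K x} (hu : (u : F) ≠ 0) {D : Divisor K F}
    (hD : ∀ P : Place K F, 0 ≤ P.ord x → D P = P.ord (u : F)) :
    Ideal.span {u} = idealOf x D := by
  apply le_antisymm
  · rw [Ideal.span_singleton_le_iff_mem]
    intro P hP
    rw [P.adicValuation_eq_exp_neg_ord hu, hD P hP]
  · intro f hf
    have hw : (f : F) / (u : F) ∈ aff K x := by
      intro P hP
      refine RR.mem_of_val_le_one P ?_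
      rw [map_div₀, P.adicValuation_eq_exp_neg_ord hu, ← hD P hP]
      exact div_le_one_of_le₀ (hf P hP) zero_le
    rw [Ideal.mem_span_singleton']
    refine ⟨⟨_, hw⟩, ?_⟩
    apply Subtype.ext
    change (f : F) / (u : F) * (u : F) = (f : F)
    field_simp

/-- The zero divisor, in the chart, of a nonzero function of the chart ring. -/
theorem exists_chartDiv {x : F} (h : IsFF1 K F x) {u : aff K x} (hu : (u : F) ≠ 0) :
    ∃ D : Divisor K F, (∀ P : Place K F, 0 ≤ D P) ∧
      (∀ P : Place K F, 0 ≤ P.ord x → D P = P.ord (u : F)) ∧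
      (∀ P : Place K F, D P ≠ 0 → 0 ≤ P.ord x) := by
  classical
  have := h.hasPrincipalDivisors
  obtain ⟨Du, hDu, -⟩ := HasPrincipalDivisors.exists_divisor (K := K) (u : F) hu
  refine ⟨Du.filter (fun P => 0 ≤ P.ord x), fun P => ?_, fun P hP => ?_, fun P hP => ?_⟩
  · by_cases hP : 0 ≤ P.ord x
    · rw [Finsupp.filter_apply_pos (fun P => 0 ≤ P.ord x) Du hP, hDu P]
      exact mem_aff_iff_ord.1 u.2 P hP
    · rw [Finsupp.filter_apply_neg (fun P => 0 ≤ P.ord x) Du hP]
  · rw [Finsupp.filter_apply_pos (fun P => 0 ≤ P.ord x) Du hP, hDu P]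
  · by_contra hP'
    exact hP (Finsupp.filter_apply_neg (fun P => 0 ≤ P.ord x) Du hP')

/-- An element of `idealOf x D` of exact order `D P` at the place `P`. -/
theorem exists_exact {x : F} (h : IsFF1 K F x) {D : Divisor K F} (hD : ∀ P : Place K F, 0 ≤ D P)
    (hsupp : ∀ P : Place K F, D P ≠ 0 → 0 ≤ P.ord x) (P : Place K F) (hP : 0 ≤ P.ord x) :
    ∃ g : aff K x, g ∈ idealOf x D ∧ P.adicValuation (g : F) = exp (-(D P)) := by
  classical
  obtain ⟨P₀, hP₀⟩ := h.exists_pole
  have hP₀S : P₀ ∉ insert P D.support := by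
    intro hmem
    rcases Finset.mem_insert.1 hmem with rfl | hmem
    · omega
    · have := hsupp P₀ (Finsupp.mem_support_iff.1 hmem)
      omega
  obtain ⟨f, hf0, hfS, hfout⟩ := h.exists_ord_eq (insert P D.support) P₀ hP₀S (fun v => D v)
  have hord : ∀ v : Place K F, 0 ≤ v.ord x → D v ≤ v.ord f := by
    intro v hv
    have hv0 : v ≠ P₀ := by
      rintro rfl
      omega
    by_cases hvS : v ∈ insert P D.support
    · rw [hfS v hvS]
    · have h1 : v ∉ D.support := fun hmem => hvS (Finset.mem_insert_of_mem hmem)
      rw [Finsupp.notMem_support_iff.1 h1]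
      exact hfout v hvS hv0
  have hmem : f ∈ aff K x := mem_aff_iff_ord.2 (fun v hv => le_trans (hD v) (hord v hv))
  refine ⟨⟨f, hmem⟩, mem_idealOf.2 (Or.inr hord), ?_⟩
  change P.adicValuation f = _
  rw [P.adicValuation_eq_exp_neg_ord hf0, hfS P (Finset.mem_insert_self _ _)]

/-- Modulo a constant multiple of an element of exact order `D P` at `P`, every element of
`idealOf x D` lies in `idealOf x (D + P)`. -/
theorem exists_sub_smul_mem {x : F} (h : IsFF1 K F x) {D : Divisor K F} {P : Place K F}
    (hP : 0 ≤ P.ord x) {g f : aff K x}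
    (hgP : P.adicValuation (g : F) = exp (-(D P))) (hg : g ∈ idealOf x D)
    (hf : f ∈ idealOf x D) :
    ∃ c : K, f - c • g ∈ idealOf x (D + Finsupp.single P 1) := by
  classical
  obtain ⟨c, hc⟩ := RR.exists_const_sub P (h.resK P) hgP (hf P hP)
  refine ⟨c, fun Q hQ => ?_⟩
  change Q.adicValuation ((f : F) - c • (g : F)) ≤ _
  by_cases hQP : Q = P
  · subst hQP
    rw [Finsupp.add_apply, Finsupp.single_eq_same]
    have : -(D Q + 1) = -(D Q) - 1 := by ring
    rw [this]
    exact hc
  · rw [Finsupp.add_apply, Finsupp.single_eq_of_ne hQP, add_zero]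
    exact le_trans (Valuation.map_sub _ _ _)
      (max_le (hf Q hQ) (le_trans (RR.val_smul_le Q c _) (hg Q hQ)))

theorem not_mem_succ {x : F} {D : Divisor K F} {P : Place K F} (hP : 0 ≤ P.ord x) {g : aff K x}
    (hgP : P.adicValuation (g : F) = exp (-(D P))) :
    g ∉ idealOf x (D + Finsupp.single P 1) := by
  intro hmem
  have := hmem P hP
  rw [hgP, Finsupp.add_apply, Finsupp.single_eq_same, exp_le_exp] at this
  omega

/-- Linear algebra: a surjection with one-dimensional kernel raises the dimension by one. -/
theorem finrank_of_surjective_of_ker {M' M : Type*} [AddCommGroup M'] [Module K M']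
    [AddCommGroup M] [Module K M] (p : M' →ₗ[K] M) (hp : Function.Surjective p) (v : M')
    (hv : v ≠ 0) (hker : LinearMap.ker p = K ∙ v) [Module.Finite K M] :
    Module.Finite K M' ∧ Module.finrank K M' = Module.finrank K M + 1 := by
  have hfin_ker : Module.Finite K (LinearMap.ker p) := by
    rw [hker]
    infer_instance
  have e := p.quotKerEquivOfSurjective hp
  have hfinq : Module.Finite K (M' ⧸ LinearMap.ker p) := Module.Finite.equiv e.symm
  have hfin : Module.Finite K M' := Module.Finite.of_submodule_quotient (LinearMap.ker p)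
  refine ⟨hfin, ?_⟩
  have h1 := Submodule.finrank_quotient_add_finrank (LinearMap.ker p)
  rw [e.finrank_eq, hker, finrank_span_singleton hv] at h1
  omega

/-- One step: `aff ⧸ idealOf (D + P)` is one dimension bigger than `aff ⧸ idealOf D`. -/
theorem finrank_quotient_succ {x : F} (h : IsFF1 K F x) {D : Divisor K F}
    (hD : ∀ P : Place K F, 0 ≤ D P) (hsupp : ∀ P : Place K F, D P ≠ 0 → 0 ≤ P.ord x)
    (P : Place K F) (hP : 0 ≤ P.ord x) [Module.Finite K (aff K x ⧸ idealOf x D)] :
    Module.Finite K (aff K x ⧸ idealOf x (D + Finsupp.single P 1)) ∧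
      Module.finrank K (aff K x ⧸ idealOf x (D + Finsupp.single P 1))
        = Module.finrank K (aff K x ⧸ idealOf x D) + 1 := by
  classical
  obtain ⟨g, hg, hgP⟩ := exists_exact h hD hsupp P hP
  have hle : idealOf x (D + Finsupp.single P 1) ≤ idealOf x D := by
    refine idealOf_mono (fun Q => ?_)
    rw [Finsupp.add_apply]
    have : (0 : ℤ) ≤ (Finsupp.single P (1 : ℤ)) Q := by
      by_cases hQ : Q = P
      · subst hQ
        rw [Finsupp.single_eq_same]
        exact zero_le_one
      · rw [Finsupp.single_eq_of_ne hQ]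
    omega
  refine finrank_of_surjective_of_ker (Ideal.Quotient.factorₐ K hle).toLinearMap
    (Ideal.Quotient.factor_surjective hle)
    (Ideal.Quotient.mk (idealOf x (D + Finsupp.single P 1)) g) ?_ ?_
  · rw [Ne, Ideal.Quotient.eq_zero_iff_mem]
    exact not_mem_succ hP hgP
  · apply le_antisymm
    · intro y hy
      obtain ⟨f, rfl⟩ := Ideal.Quotient.mk_surjective y
      rw [LinearMap.mem_ker] at hy
      have hf : f ∈ idealOf x D := by
        rw [← Ideal.Quotient.eq_zero_iff_mem]
        exact hy
      obtain ⟨c, hc⟩ := exists_sub_smul_mem h hP hgP hg hf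
      rw [Submodule.mem_span_singleton]
      refine ⟨c, ?_⟩
      rw [← Ideal.Quotient.eq_zero_iff_mem, map_sub, sub_eq_zero] at hc
      rw [hc]
      rfl
    · rw [Submodule.span_singleton_le_iff_mem, LinearMap.mem_ker]
      change Ideal.Quotient.mk (idealOf x D) g = 0
      rw [Ideal.Quotient.eq_zero_iff_mem]
      exact hg

/-- **(DICT-dim).** For an effective divisor `D` supported in the chart of `x`, the quotient of
the chart ring by `idealOf x D` has dimension `deg D`. -/
theorem finrank_quotient_idealOf {x : F} (h : IsFF1 K F x) {D : Divisor K F}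
    (hD : ∀ P : Place K F, 0 ≤ D P) (hsupp : ∀ P : Place K F, D P ≠ 0 → 0 ≤ P.ord x) :
    Module.Finite K (aff K x ⧸ idealOf x D) ∧
      (Module.finrank K (aff K x ⧸ idealOf x D) : ℤ) = Divisor.degree D := by
  classical
  suffices H : ∀ (n : ℕ) (D : Divisor K F), (∀ P : Place K F, 0 ≤ D P) →
      (∀ P : Place K F, D P ≠ 0 → 0 ≤ P.ord x) → Divisor.degree D = n →
      Module.Finite K (aff K x ⧸ idealOf x D) ∧
        Module.finrank K (aff K x ⧸ idealOf x D) = n by
    have hdeg : 0 ≤ Divisor.degree D := by
      rw [h.degree_eq_sum]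
      exact Finset.sum_nonneg (fun v _ => hD v)
    obtain ⟨n, hn⟩ := Int.eq_ofNat_of_zero_le hdeg
    obtain ⟨h1, h2⟩ := H n D hD hsupp hn
    exact ⟨h1, by rw [h2, hn]⟩
  intro n
  induction n with
  | zero =>
    intro D hD _ hdeg
    have hD0 : D = 0 := by
      rw [h.degree_eq_sum] at hdeg
      have h0 := (Finset.sum_eq_zero_iff_of_nonneg (fun v _ => hD v)).1 (by exact_mod_cast hdeg)
      ext v
      by_cases hv : v ∈ D.support
      · exact h0 v hv
      · exact Finsupp.notMem_support_iff.1 hv
    subst hD0
    have hsub : Subsingleton (aff K x ⧸ idealOf x (0 : Divisor K F)) :=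
      Ideal.Quotient.subsingleton_iff.2 (idealOf_zero x)
    exact ⟨inferInstance, Module.finrank_zero_of_subsingleton⟩
  | succ n ih =>
    intro D hD hsupp hdeg
    have hex : ∃ P : Place K F, 0 < D P := by
      by_contra hne
      push Not at hne
      have hD0 : D = 0 := by
        ext v
        exact le_antisymm (hne v) (hD v)
      rw [hD0, map_zero] at hdeg
      omega
    obtain ⟨P, hPpos⟩ := hex
    have hP : 0 ≤ P.ord x := hsupp P (by omega)
    set D₀ : Divisor K F := D - Finsupp.single P 1 with hD₀
    have hD₀nn : ∀ Q : Place K F, 0 ≤ D₀ Q := by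
      intro Q
      rw [hD₀, Finsupp.sub_apply]
      by_cases hQ : Q = P
      · subst hQ
        rw [Finsupp.single_eq_same]
        omega
      · rw [Finsupp.single_eq_of_ne hQ, sub_zero]
        exact hD Q
    have hD₀supp : ∀ Q : Place K F, D₀ Q ≠ 0 → 0 ≤ Q.ord x := by
      intro Q hQ0
      by_cases hQ : Q = P
      · subst hQ
        exact hP
      · refine hsupp Q ?_
        rwa [hD₀, Finsupp.sub_apply, Finsupp.single_eq_of_ne hQ, sub_zero] at hQ0
    have hD₀deg : Divisor.degree D₀ = n := by
      rw [hD₀, map_sub, hdeg, Divisor.degree_single, h.deg_eq_one P]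
      push_cast
      ring
    obtain ⟨hfin, hrank⟩ := ih D₀ hD₀nn hD₀supp hD₀deg
    have hDeq : D = D₀ + Finsupp.single P 1 := by
      rw [hD₀, sub_add_cancel]
    rw [hDeq]
    obtain ⟨h1, h2⟩ := finrank_quotient_succ h hD₀nn hD₀supp P hP
    exact ⟨h1, by rw [h2, hrank]⟩

end Fermat.Agent.S27P.GR.Spec.DictDim
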